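import Mathlib
import Fermat.Agent.H82.SS.Contract
import Fermat.Agent.H41.AtkinLehnerBar
import Fermat.Agent.H93.KL.DescInterfaces
import Fermat.Prelude.Thm_ModularCurve_coeffMap_qExpand

/-!
# P-SS row 746 (SS-AL-EX): the Atkin-Lehner automorphism over a number field (helper62)

`modelAtkinLehnerExists : Fermat.Agent.H82.SS.ModelAtkinLehnerExistsStatement`.

Route: the Atkin-Lehner automorphism `W̄` of the function field over `ℚ̄`
(`Fermat.Agent.H41.exists_atkinLehner_abstract` applied to `Fermat.Agent.H44.core`) permutes the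
generators `j(t^d)`, `d ∣ M q`, which are rational; hence it preserves the image of
`F_{K₁} → F_{ℚ̄}` (coefficientwise base change along any embedding `ι : K₁ → ℚ̄`) and
restricts to `F_{K₁}`.
-/

set_option autoImplicit false

noncomputable section

namespace Fermat.Agent.H62.SS

open ModularCurve AlgebraicCurve
open Fermat.Agent.H22.KL Fermat.Agent.H93.KL

/-- **Atkin–Lehner over `ℚ̄`** with its action on ALL the generators `j(t^d)`, and
involutivity. -/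
theorem exists_atkinLehnerBar_gens (N ℓ : ℕ) [NeZero N] [NeZero ℓ] (hcop : Nat.Coprime N ℓ) :
    ∃ W : ↥(modularFunctionFieldBar (N * ℓ)) ≃ₐ[QBar] ↥(modularFunctionFieldBar (N * ℓ)),
      (∀ (d' : ℕ) (_ : NeZero d') (hd' : d' ∣ N * ℓ),
        ∃ (d'' : ℕ) (_ : NeZero d'') (hd'' : d'' ∣ N * ℓ),
          W (H23.jBarD (N * ℓ) d' hd') = H23.jBarD (N * ℓ) d'' hd'' ∧
          W (H23.jBarD (N * ℓ) d'' hd'') = H23.jBarD (N * ℓ) d' hd') ∧
      (∀ x, W (heckeAlphaBar QBar N ℓ x) = heckeBetaBar QBar N ℓ x) ∧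
      (∀ x, W (heckeBetaBar QBar N ℓ x) = heckeAlphaBar QBar N ℓ x) ∧
      (∀ z, W (W z) = z) := by
  obtain ⟨ι, Θ, hinj, -, hconst, hjd, hfrac⟩ := H44.core (N * ℓ)
  obtain ⟨W, hW⟩ := H41.exists_atkinLehner_abstract hcop
    (fun d _ hd => H23.jBarD (N * ℓ) d hd) (H23.Rsub (N * ℓ)) rfl Θ ι hinj hconst hjd hfrac
  obtain ⟨-, -, -, -, -, -, hfracN⟩ := H44.core N
  have hN0 : N ≠ 0 := NeZero.ne N
  have hℓ0 : ℓ ≠ 0 := NeZero.ne ℓ
  -- action on the generators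
  have hgens : ∀ (d' : ℕ) (_ : NeZero d') (hd' : d' ∣ N * ℓ),
      ∃ (d'' : ℕ) (_ : NeZero d'') (hd'' : d'' ∣ N * ℓ),
        W (H23.jBarD (N * ℓ) d' hd') = H23.jBarD (N * ℓ) d'' hd'' ∧
        W (H23.jBarD (N * ℓ) d'' hd'') = H23.jBarD (N * ℓ) d' hd' := by
    intro d' hd0 hd'
    obtain ⟨d, d₁, e, e', hN, hℓ, hde⟩ := H41.exists_dvd_decomp hcop hd'
    subst hde
    have hdN : d ∣ N := ⟨d₁, hN⟩
    have he'0 : d * e' ≠ 0 := by
      intro h
      rcases Nat.mul_eq_zero.mp h with h | h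
      · exact hN0 (by rw [hN, h, zero_mul])
      · exact hℓ0 (by rw [hℓ, h, mul_zero])
    have i2 : NeZero (d * e') := ⟨he'0⟩
    have h2 : d * e' ∣ N * ℓ := by
      rw [hN, hℓ]
      exact Nat.mul_dvd_mul (dvd_mul_right d d₁) (dvd_mul_left e' e)
    refine ⟨d * e', i2, h2, ?_, ?_⟩
    · exact hW d e e' hd0 i2 hdN hℓ.symm hd' h2
    · exact hW d e' e i2 hd0 hdN (by rw [hℓ, mul_comm]) h2 hd'
  have hfracNℓ : ∀ f : ↥(modularFunctionFieldBar (N * ℓ)),
      ∃ r s : ↥(Algebra.adjoin QBar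
        {x | ∃ (d : ℕ) (_ : NeZero d) (hd : d ∣ N * ℓ), x = H23.jBarD (N * ℓ) d hd}),
        s ≠ 0 ∧ f * (s : ↥(modularFunctionFieldBar (N * ℓ))) = r := hfrac
  -- the generators of level `N` inside level `N ℓ`
  have hα : ∀ (d : ℕ) (_ : NeZero d) (hd : d ∣ N) (_ : NeZero (d * 1)) (h1 : d * 1 ∣ N * ℓ),
      heckeAlphaBar QBar N ℓ (H23.jBarD N d hd) = H23.jBarD (N * ℓ) (d * 1) h1 := by
    intro d _ hd _ h1
    apply Subtype.ext
    rw [coe_heckeAlphaBar]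
    change coeffEmb _ (qExpand ℚ d jq) = coeffEmb _ (qExpand ℚ (d * 1) jq)
    congr 1
    exact qExpand_congr (mul_one d).symm jq
  have hβ : ∀ (d : ℕ) (_ : NeZero d) (hd : d ∣ N) (_ : NeZero (d * ℓ)) (h2 : d * ℓ ∣ N * ℓ),
      heckeBetaBar QBar N ℓ (H23.jBarD N d hd) = H23.jBarD (N * ℓ) (d * ℓ) h2 := by
    intro d _ hd _ h2
    apply Subtype.ext
    change qExpand _ ℓ (coeffEmb _ (qExpand ℚ d jq)) = coeffEmb _ (qExpand ℚ (d * ℓ) jq)
    exact H41.qExpand_coeffEmb_jq _ d ℓ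
  have hfracN' : ∀ f : ↥(modularFunctionFieldBar N),
      ∃ r s : ↥(Algebra.adjoin QBar
        {x | ∃ (d : ℕ) (_ : NeZero d) (hd : d ∣ N), x = H23.jBarD N d hd}),
        s ≠ 0 ∧ f * (s : ↥(modularFunctionFieldBar N)) = r := hfracN
  refine ⟨W, hgens, ?_, ?_, ?_⟩
  · refine H41.algHom_eq_of_eqOn_gens _ hfracN'
      (W.toAlgHom.comp (heckeAlphaBar QBar N ℓ)) (heckeBetaBar QBar N ℓ) ?_
    rintro x ⟨d, hd0, hd, rfl⟩
    have i1 : NeZero (d * 1) := ⟨by simpa using NeZero.ne d⟩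
    have i2 : NeZero (d * ℓ) := ⟨mul_ne_zero (NeZero.ne d) (NeZero.ne ℓ)⟩
    have h1 : d * 1 ∣ N * ℓ := by simpa using hd.mul_right ℓ
    have h2 : d * ℓ ∣ N * ℓ := Nat.mul_dvd_mul_right hd ℓ
    change W (heckeAlphaBar QBar N ℓ (H23.jBarD N d hd)) = _
    rw [hα d hd0 hd i1 h1, hβ d hd0 hd i2 h2]
    exact hW d 1 ℓ i1 i2 hd (one_mul ℓ) h1 h2
  · refine H41.algHom_eq_of_eqOn_gens _ hfracN'
      (W.toAlgHom.comp (heckeBetaBar QBar N ℓ)) (heckeAlphaBar QBar N ℓ) ?_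
    rintro x ⟨d, hd0, hd, rfl⟩
    have i1 : NeZero (d * 1) := ⟨by simpa using NeZero.ne d⟩
    have i2 : NeZero (d * ℓ) := ⟨mul_ne_zero (NeZero.ne d) (NeZero.ne ℓ)⟩
    have h1 : d * 1 ∣ N * ℓ := by simpa using hd.mul_right ℓ
    have h2 : d * ℓ ∣ N * ℓ := Nat.mul_dvd_mul_right hd ℓ
    change W (heckeBetaBar QBar N ℓ (H23.jBarD N d hd)) = _
    rw [hα d hd0 hd i1 h1, hβ d hd0 hd i2 h2]
    exact hW d ℓ 1 i2 i1 hd (mul_one ℓ) h2 h1
  · refine H41.algHom_eq_of_eqOn_gens _ hfracNℓ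
      (W.toAlgHom.comp W.toAlgHom) (AlgHom.id QBar _) ?_
    rintro x ⟨d', hd0, hd', rfl⟩
    obtain ⟨d'', hd0'', hd'', h1, h2⟩ := hgens d' hd0 hd'
    change W (W (H23.jBarD (N * ℓ) d' hd')) = H23.jBarD (N * ℓ) d' hd'
    rw [h1, h2]

section Descent

variable {K₁ : Type} [Field K₁] [Algebra ℚ K₁] (ι : K₁ →+* QBar)
  (F₀ : IntermediateField ℚ (LaurentSeries ℚ))

/-- the rational elements of the function field over `ℚ̄` -/
def ratBar : ↥F₀ →+* ↥(laurentBaseChange QBar F₀) where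
  toFun w := ⟨coeffEmb QBar (w : LaurentSeries ℚ), coeffEmb_mem_laurentBaseChange QBar w.2⟩
  map_one' := Subtype.ext (map_one (coeffEmb QBar))
  map_mul' _ _ := Subtype.ext (map_mul (coeffEmb QBar) _ _)
  map_zero' := Subtype.ext (map_zero (coeffEmb QBar))
  map_add' _ _ := Subtype.ext (map_add (coeffEmb QBar) _ _)

/-- the rational elements of the function field over `K₁` -/
def ratK : ↥F₀ →+* ↥(laurentBaseChange K₁ F₀) where
  toFun w := ⟨coeffEmb K₁ (w : LaurentSeries ℚ), coeffEmb_mem_laurentBaseChange K₁ w.2⟩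
  map_one' := Subtype.ext (map_one (coeffEmb K₁))
  map_mul' _ _ := Subtype.ext (map_mul (coeffEmb K₁) _ _)
  map_zero' := Subtype.ext (map_zero (coeffEmb K₁))
  map_add' _ _ := Subtype.ext (map_add (coeffEmb K₁) _ _)

theorem klBc_ratK (w : ↥F₀) : klBc ι F₀ (ratK (K₁ := K₁) F₀ w) = ratBar F₀ w := by
  apply Subtype.ext
  show coeffMap ι (coeffEmb K₁ (w : LaurentSeries ℚ)) = coeffEmb QBar (w : LaurentSeries ℚ)
  rw [coeffEmb, coeffEmb, coeffMap_coeffMap]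
  exact coeffMap_congr (Subsingleton.elim _ _) _

theorem klBc_algebraMap' (a : K₁) :
    klBc ι F₀ (algebraMap K₁ ↥(laurentBaseChange K₁ F₀) a)
      = algebraMap QBar ↥(laurentBaseChange QBar F₀) (ι a) := by
  apply Subtype.ext
  show coeffMap ι (algebraMap K₁ (LaurentSeries K₁) a)
    = algebraMap QBar (LaurentSeries QBar) (ι a)
  rw [algebraMap_laurentSeries_eq_single, algebraMap_laurentSeries_eq_single, coeffMap_single]

/-- An automorphism over `ℚ̄` which maps rational generators to rational elements preserves the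
rational elements. -/
theorem rat_stable (S : Set (LaurentSeries ℚ)) (hF₀ : F₀ = IntermediateField.adjoin ℚ S)
    (W : ↥(laurentBaseChange QBar F₀) ≃ₐ[QBar] ↥(laurentBaseChange QBar F₀))
    (hgen : ∀ (x : LaurentSeries ℚ) (_ : x ∈ S) (hxF : x ∈ F₀),
      ∃ w' : ↥F₀, W (ratBar F₀ ⟨x, hxF⟩) = ratBar F₀ w')
    (w : ↥F₀) : ∃ w' : ↥F₀, W (ratBar F₀ w) = ratBar F₀ w' := by
  obtain ⟨w, hw⟩ := w
  have hw' : w ∈ IntermediateField.adjoin ℚ S := hF₀ ▸ hw
  revert hw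
  induction hw' using IntermediateField.adjoin_induction with
  | mem x hx => exact fun h => hgen x hx h
  | algebraMap c =>
    intro h
    refine ⟨⟨algebraMap ℚ (LaurentSeries ℚ) c, h⟩, ?_⟩
    have e2 : ratBar F₀ ⟨algebraMap ℚ (LaurentSeries ℚ) c, h⟩
        = algebraMap QBar ↥(laurentBaseChange QBar F₀) (algebraMap ℚ QBar c) := by
      apply Subtype.ext
      show coeffEmb QBar (algebraMap ℚ (LaurentSeries ℚ) c)
        = algebraMap QBar (LaurentSeries QBar) (algebraMap ℚ QBar c)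
      rw [algebraMap_laurentSeries_eq_single, algebraMap_laurentSeries_eq_single, coeffEmb,
        coeffMap_single]
    rw [e2, W.commutes]
  | add x y hx hy ihx ihy =>
    intro h
    have hx' : x ∈ F₀ := hF₀ ▸ hx
    have hy' : y ∈ F₀ := hF₀ ▸ hy
    obtain ⟨x', hx''⟩ := ihx hx'
    obtain ⟨y', hy''⟩ := ihy hy'
    refine ⟨x' + y', ?_⟩
    have e1 : (⟨x + y, h⟩ : ↥F₀) = ⟨x, hx'⟩ + ⟨y, hy'⟩ := rfl
    rw [e1, map_add, map_add, map_add, hx'', hy'']
  | inv x hx ihx =>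
    intro h
    have hx' : x ∈ F₀ := hF₀ ▸ hx
    obtain ⟨x', hx''⟩ := ihx hx'
    refine ⟨x'⁻¹, ?_⟩
    have e1 : (⟨x⁻¹, h⟩ : ↥F₀) = (⟨x, hx'⟩ : ↥F₀)⁻¹ := rfl
    rw [e1, map_inv₀, map_inv₀, map_inv₀, hx'']
  | mul x y hx hy ihx ihy =>
    intro h
    have hx' : x ∈ F₀ := hF₀ ▸ hx
    have hy' : y ∈ F₀ := hF₀ ▸ hy
    obtain ⟨x', hx''⟩ := ihx hx'
    obtain ⟨y', hy''⟩ := ihy hy'
    refine ⟨x' * y', ?_⟩
    have e1 : (⟨x * y, h⟩ : ↥F₀) = ⟨x, hx'⟩ * ⟨y, hy'⟩ := rfl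
    rw [e1, map_mul, map_mul, map_mul, hx'', hy'']

/-- An automorphism over `ℚ̄` preserving the rational elements preserves the image of the
function field over `K₁`. -/
theorem model_stable
    (W : ↥(laurentBaseChange QBar F₀) ≃ₐ[QBar] ↥(laurentBaseChange QBar F₀))
    (hrat : ∀ w : ↥F₀, ∃ w' : ↥F₀, W (ratBar F₀ w) = ratBar F₀ w')
    (f : ↥(laurentBaseChange K₁ F₀)) :
    ∃ g : ↥(laurentBaseChange K₁ F₀), klBc ι F₀ g = W (klBc ι F₀ f) := by
  obtain ⟨f, hf⟩ := f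
  have hf' := mem_laurentBaseChange_iff.mp hf
  revert hf
  induction hf' using Subfield.closure_induction with
  | mem y hy =>
    intro h
    rcases hy with ⟨a, rfl⟩ | ⟨w, hw, rfl⟩
    · refine ⟨algebraMap K₁ _ a, ?_⟩
      have e1 : (⟨algebraMap K₁ (LaurentSeries K₁) a, h⟩ : ↥(laurentBaseChange K₁ F₀))
          = algebraMap K₁ _ a := rfl
      rw [e1, klBc_algebraMap', W.commutes]
    · obtain ⟨w', hw'⟩ := hrat ⟨w, hw⟩
      refine ⟨ratK F₀ w', ?_⟩
      have e1 : (⟨coeffEmb K₁ w, h⟩ : ↥(laurentBaseChange K₁ F₀)) = ratK F₀ ⟨w, hw⟩ := rfl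
      rw [e1, klBc_ratK, klBc_ratK, hw']
  | one =>
    intro h
    refine ⟨1, ?_⟩
    have e1 : (⟨1, h⟩ : ↥(laurentBaseChange K₁ F₀)) = 1 := rfl
    rw [e1, map_one, map_one]
  | add x y hx hy ihx ihy =>
    intro h
    have hx' : x ∈ laurentBaseChange K₁ F₀ := mem_laurentBaseChange_iff.mpr hx
    have hy' : y ∈ laurentBaseChange K₁ F₀ := mem_laurentBaseChange_iff.mpr hy
    obtain ⟨x', hx''⟩ := ihx hx'
    obtain ⟨y', hy''⟩ := ihy hy'
    refine ⟨x' + y', ?_⟩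
    have e1 : (⟨x + y, h⟩ : ↥(laurentBaseChange K₁ F₀)) = ⟨x, hx'⟩ + ⟨y, hy'⟩ := rfl
    rw [e1, map_add, map_add, map_add, hx'', hy'']
  | neg x hx ihx =>
    intro h
    have hx' : x ∈ laurentBaseChange K₁ F₀ := mem_laurentBaseChange_iff.mpr hx
    obtain ⟨x', hx''⟩ := ihx hx'
    refine ⟨-x', ?_⟩
    have e1 : (⟨-x, h⟩ : ↥(laurentBaseChange K₁ F₀)) = -(⟨x, hx'⟩) := rfl
    rw [e1, map_neg, map_neg, map_neg, hx'']
  | inv x hx ihx =>
    intro h
    have hx' : x ∈ laurentBaseChange K₁ F₀ := mem_laurentBaseChange_iff.mpr hx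
    obtain ⟨x', hx''⟩ := ihx hx'
    refine ⟨x'⁻¹, ?_⟩
    have e1 : (⟨x⁻¹, h⟩ : ↥(laurentBaseChange K₁ F₀)) = (⟨x, hx'⟩)⁻¹ := rfl
    rw [e1, map_inv₀, map_inv₀, map_inv₀, hx'']
  | mul x y hx hy ihx ihy =>
    intro h
    have hx' : x ∈ laurentBaseChange K₁ F₀ := mem_laurentBaseChange_iff.mpr hx
    have hy' : y ∈ laurentBaseChange K₁ F₀ := mem_laurentBaseChange_iff.mpr hy
    obtain ⟨x', hx''⟩ := ihx hx'
    obtain ⟨y', hy''⟩ := ihy hy'
    refine ⟨x' * y', ?_⟩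
    have e1 : (⟨x * y, h⟩ : ↥(laurentBaseChange K₁ F₀)) = ⟨x, hx'⟩ * ⟨y, hy'⟩ := rfl
    rw [e1, map_mul, map_mul, map_mul, hx'', hy'']

/-- **Descent of an involutive automorphism** from `F_{ℚ̄}` to `F_{K₁}`. -/
theorem exists_descent
    (W : ↥(laurentBaseChange QBar F₀) ≃ₐ[QBar] ↥(laurentBaseChange QBar F₀))
    (hinv : ∀ z, W (W z) = z)
    (hrat : ∀ w : ↥F₀, ∃ w' : ↥F₀, W (ratBar F₀ w) = ratBar F₀ w') :
    ∃ W₁ : ↥(laurentBaseChange K₁ F₀) ≃ₐ[K₁] ↥(laurentBaseChange K₁ F₀),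
      ∀ f, klBc ι F₀ (W₁ f) = W (klBc ι F₀ f) := by
  classical
  have hbinj : Function.Injective (klBc ι F₀) := (klBc ι F₀).injective
  choose w hw using model_stable ι F₀ W hrat
  have hww : ∀ f, w (w f) = f := by
    intro f
    apply hbinj
    rw [hw, hw, hinv]
  let e : ↥(laurentBaseChange K₁ F₀) ≃+* ↥(laurentBaseChange K₁ F₀) :=
    { toFun := w
      invFun := w
      left_inv := hww
      right_inv := hww
      map_mul' := fun x y => by
        apply hbinj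
        rw [hw, map_mul, map_mul, map_mul, hw, hw]
      map_add' := fun x y => by
        apply hbinj
        rw [hw, map_add, map_add, map_add, hw, hw] }
  have he : ∀ f, e f = w f := fun _ => rfl
  refine ⟨AlgEquiv.ofRingEquiv (f := e) ?_, ?_⟩
  · intro a
    apply hbinj
    rw [he, hw, klBc_algebraMap', W.commutes]
  · intro f
    exact hw f

end Descent

/-- **P-SS row 746 (SS-AL-EX)**: the Atkin-Lehner automorphism `W_q` of the model field of level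
`M q` exists over every number field. -/
theorem modelAtkinLehnerExists : Fermat.Agent.H82.SS.ModelAtkinLehnerExistsStatement := by
  intro M q _ _ hcop K₁ _ _ _
  have : Algebra.IsAlgebraic ℚ K₁ := Algebra.IsAlgebraic.of_finite ℚ K₁
  let ι : K₁ →+* QBar := (IsAlgClosed.lift : K₁ →ₐ[ℚ] QBar).toRingHom
  obtain ⟨W, hgens, hα, hβ, hinv⟩ := exists_atkinLehnerBar_gens M q hcop
  have hrat : ∀ w : ↥(modularFunctionFieldFull (M * q)),
      ∃ w' : ↥(modularFunctionFieldFull (M * q)),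
        W (ratBar (modularFunctionFieldFull (M * q)) w)
          = ratBar (modularFunctionFieldFull (M * q)) w' := by
    refine rat_stable (modularFunctionFieldFull (M * q)) (divisorExpansions (M * q)) rfl W ?_
    rintro x ⟨d, hd0, hd, rfl⟩ hxF
    obtain ⟨d'', hd0'', hd'', h1, -⟩ := hgens d hd0 hd
    refine ⟨⟨qExpand ℚ d'' jq, jqd_mem_full (M * q) hd''⟩, ?_⟩
    exact h1
  obtain ⟨W₁, hW₁⟩ := exists_descent ι (modularFunctionFieldFull (M * q)) W hinv hrat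
  have hbinj : Function.Injective (klBc ι (modularFunctionFieldFull (M * q))) :=
    (klBc ι (modularFunctionFieldFull (M * q))).injective
  have hbα : ∀ f : ModelField K₁ M,
      klBc ι (modularFunctionFieldFull (M * q)) (heckeAlphaBar K₁ M q f)
        = heckeAlphaBar QBar M q (klBc ι (modularFunctionFieldFull M) f) := by
    intro f
    apply Subtype.ext
    rw [klBc_coe, coe_heckeAlphaBar, coe_heckeAlphaBar, klBc_coe]
  have hbβ : ∀ f : ModelField K₁ M,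
      klBc ι (modularFunctionFieldFull (M * q)) (heckeBetaBar K₁ M q f)
        = heckeBetaBar QBar M q (klBc ι (modularFunctionFieldFull M) f) := by
    intro f
    apply Subtype.ext
    rw [klBc_coe, coe_heckeBetaBar, coe_heckeBetaBar, klBc_coe]
    exact coeffMap_qExpand ι q _
  refine ⟨W₁, fun f => ?_, fun f => ?_⟩
  · apply hbinj
    rw [hW₁, hbα, hα, hbβ]
  · apply hbinj
    rw [hW₁, hbβ, hβ, hbα]

end Fermat.Agent.H62.SS
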