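import Mathlib
import Fermat.Agent.H22.ES.KLModel
import Fermat.Agent.H8.SS.Haupt4Kronecker
import Fermat.Prelude.Def_ModularCurve_HeckeOperator

/-!
# P-SS, model input (ii) of the ordinary-point row (helper62)

* `mem_chartClosure_of_intJ` : an element of the model field whose `q`-expansion is integral over
  `ℤ[j]` (`Fermat.Agent.H8.SS.IntJ`) lies in `B(j) = chartClosure A₀ E₀ x`;
* `haupt4_mem_chartClosure` : the Hauptmodul `H` of level 4 lies in `B(j)`;
* `chartClosure_map_le` : (abstract) if `α y ∈ B(x)` then `α (B'(y)) ⊆ B(x)`;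
* `chartClosure_haupt4_le` : `B'(H) ⊆ B(j)` along the inclusion of level `M` in level `M q`;
* `chartClosure_haupt4_le_same` : `B(H) ⊆ B(j)` at one level.
-/

set_option autoImplicit false

noncomputable section

namespace Fermat.Agent.H62.SS

open Polynomial ModularCurve AlgebraicCurve
open Fermat.Agent.H22.KL

/-- membership in `B(x)` is integrality over `A[x]` -/
theorem mem_chartClosure_iff {A : Type} [CommRing A] {E : Type} [Field E] [Algebra A E]
    (x z : E) : z ∈ chartClosure A E x ↔ IsIntegral (chartRing A E x) z :=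
  Iff.rfl

/-- `x ∈ A[x]` -/
theorem self_mem_chartRing {A : Type} [CommRing A] {E : Type} [Field E] [Algebra A E]
    (x : E) : x ∈ chartRing A E x :=
  Algebra.subset_adjoin (Set.mem_singleton x)

/-- `A[x] ⊆ B(x)` -/
theorem chartRing_le_chartClosure {A : Type} [CommRing A] {E : Type} [Field E] [Algebra A E]
    (x : E) : chartRing A E x ≤ chartClosure A E x := by
  intro z hz
  rw [mem_chartClosure_iff]
  exact isIntegral_algebraMap (R := chartRing A E x) (A := E) (x := ⟨z, hz⟩)

/-- **integral `q`-expansions lie in `B(j)`** -/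
theorem mem_chartClosure_of_intJ (N : ℕ) (K₁ : Type) [Field K₁] [Algebra ℚ K₁]
    (A₀ : Type) [CommRing A₀] [Algebra A₀ K₁]
    [Algebra A₀ (ModelField K₁ N)] [IsScalarTower A₀ K₁ (ModelField K₁ N)]
    (x c : ModelField K₁ N) (hx : (x : LaurentSeries K₁) = coeffEmb K₁ jq)
    (hc : Fermat.Agent.H8.SS.IntJ K₁ (c : LaurentSeries K₁)) :
    c ∈ chartClosure A₀ (ModelField K₁ N) x := by
  rw [mem_chartClosure_iff]
  obtain ⟨p, hp, hpc⟩ := hc
  -- the ring homomorphism `ℤ[X] → A₀[x]`, `X ↦ x`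
  let φ : Polynomial ℤ →+* chartRing A₀ (ModelField K₁ N) x :=
    Polynomial.eval₂RingHom (Int.castRingHom _) ⟨x, self_mem_chartRing x⟩
  refine ⟨p.map φ, hp.map φ, ?_⟩
  rw [Polynomial.eval₂_map]
  -- compare in `K₁((t))`
  have hval : ((laurentBaseChange K₁ (modularFunctionFieldFull N)).val.toRingHom.comp
      ((algebraMap (chartRing A₀ (ModelField K₁ N) x) (ModelField K₁ N)).comp φ))
      = Fermat.Agent.H27.evalAt (jqModC K₁) := by
    refine Polynomial.ringHom_ext' (Subsingleton.elim _ _) ?_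
    simp only [φ, RingHom.comp_apply, Polynomial.coe_eval₂RingHom, Polynomial.eval₂_X,
      Fermat.Agent.H27.evalAt]
    show (x : LaurentSeries K₁) = jqModC K₁
    rw [hx]
    rw [coeffEmb, ← jqModC_rat, coeffMap_jqModC]
  apply Subtype.val_injective
  have h1 := Polynomial.hom_eval₂ p
    ((algebraMap (chartRing A₀ (ModelField K₁ N) x) (ModelField K₁ N)).comp φ)
    ((laurentBaseChange K₁ (modularFunctionFieldFull N)).val.toRingHom) c
  rw [hval] at h1
  show (laurentBaseChange K₁ (modularFunctionFieldFull N)).val.toRingHom _ = _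
  rw [h1]
  exact hpc

/-- **The Hauptmodul of level 4 lies in `B(j)`.** -/
theorem haupt4_mem_chartClosure (N : ℕ) (K₁ : Type) [Field K₁] [Algebra ℚ K₁]
    (A₀ : Type) [CommRing A₀] [Algebra A₀ K₁]
    [Algebra A₀ (ModelField K₁ N)] [IsScalarTower A₀ K₁ (ModelField K₁ N)]
    (x H : ModelField K₁ N) (hx : (x : LaurentSeries K₁) = coeffEmb K₁ jq)
    (hH : (H : LaurentSeries K₁) = Fermat.Agent.H8.SS.h4S K₁) :
    H ∈ chartClosure A₀ (ModelField K₁ N) x := by
  refine mem_chartClosure_of_intJ N K₁ A₀ x H hx ?_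
  rw [hH]
  exact Fermat.Agent.H8.SS.intJ_h4S K₁

/-- (abstract) if `α y ∈ B(x)` then `α` maps `B'(y)` into `B(x)`. -/
theorem chartClosure_map_le {A : Type} [CommRing A] {E' E : Type} [Field E'] [Field E]
    [Algebra A E'] [Algebra A E] (α : E' →ₐ[A] E) (y : E') (x : E)
    (hy : α y ∈ chartClosure A E x) (z : E') (hz : z ∈ chartClosure A E' y) :
    α z ∈ chartClosure A E x := by
  rw [mem_chartClosure_iff] at hz ⊢
  -- `α (A[y]) ⊆ B(x)`
  have hle : ∀ w ∈ chartRing A E' y, α w ∈ integralClosure (chartRing A E x) E := by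
    intro w hw
    have h1 : α w ∈ (chartRing A E' y).map α := ⟨w, hw, rfl⟩
    have h2 : (chartRing A E' y).map α ≤ chartClosure A E x := by
      rw [chartRing, AlgHom.map_adjoin, Algebra.adjoin_le_iff]
      rintro _ ⟨w', hw', rfl⟩
      rw [Set.mem_singleton_iff] at hw'
      rw [hw']
      exact hy
    exact h2 h1
  -- the ring homomorphism `A[y] → B(x)`
  let ψ : chartRing A E' y →+* integralClosure (chartRing A E x) E :=
    { toFun := fun w => ⟨α w, hle w w.2⟩
      map_one' := Subtype.ext (map_one α)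
      map_mul' := fun _ _ => Subtype.ext (map_mul α _ _)
      map_zero' := Subtype.ext (map_zero α)
      map_add' := fun _ _ => Subtype.ext (map_add α _ _) }
  obtain ⟨p, hp, hpz⟩ := hz
  -- `α z` is integral over `B(x)`
  have hint : IsIntegral (integralClosure (chartRing A E x) E) (α z) := by
    refine ⟨p.map ψ, hp.map ψ, ?_⟩
    rw [Polynomial.eval₂_map]
    have hcomp : (algebraMap (integralClosure (chartRing A E x) E) E).comp ψ
        = (α : E' →+* E).comp (algebraMap (chartRing A E' y) E') := by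
      ext w
      rfl
    rw [hcomp]
    have h := Polynomial.hom_eval₂ p (algebraMap (chartRing A E' y) E') (α : E' →+* E) z
    rw [hpz, map_zero] at h
    exact h.symm
  -- transitivity
  have h3 : α z ∈ integralClosure (integralClosure (chartRing A E x) E) E := hint
  rw [integralClosure_idem] at h3
  obtain ⟨b, hb⟩ := Algebra.mem_bot.mp h3
  rw [← hb]
  exact b.2

/-- **`B'(H) ⊆ B(j)`**: the integral closure of `A₀[H]` at level `M` maps into the integral
closure of `A₀[j]` at level `M q` (for ANY `H` of level `M` whose image lies in `B(j)`). -/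
theorem chartClosure_alpha_le (M q : ℕ) [NeZero M] [NeZero q] (K₁ : Type) [Field K₁]
    [Algebra ℚ K₁] (A₀ : Type) [CommRing A₀] [Algebra A₀ K₁]
    [Algebra A₀ (ModelField K₁ M)] [IsScalarTower A₀ K₁ (ModelField K₁ M)]
    [Algebra A₀ (ModelField K₁ (M * q))] [IsScalarTower A₀ K₁ (ModelField K₁ (M * q))]
    (x : ModelField K₁ (M * q)) (H' : ModelField K₁ M)
    (hH : heckeAlphaBar K₁ M q H' ∈ chartClosure A₀ (ModelField K₁ (M * q)) x)
    (z : ModelField K₁ M) (hz : z ∈ chartClosure A₀ (ModelField K₁ M) H') :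
    heckeAlphaBar K₁ M q z ∈ chartClosure A₀ (ModelField K₁ (M * q)) x :=
  chartClosure_map_le ((heckeAlphaBar K₁ M q).restrictScalars A₀) H' x hH z hz

/-- **`B'(H) ⊆ B(j)`** for the Hauptmodul of level 4. -/
theorem chartClosure_haupt4_le (M q : ℕ) [NeZero M] [NeZero q] (K₁ : Type) [Field K₁]
    [Algebra ℚ K₁] (A₀ : Type) [CommRing A₀] [Algebra A₀ K₁]
    [Algebra A₀ (ModelField K₁ M)] [IsScalarTower A₀ K₁ (ModelField K₁ M)]
    [Algebra A₀ (ModelField K₁ (M * q))] [IsScalarTower A₀ K₁ (ModelField K₁ (M * q))]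
    (x : ModelField K₁ (M * q)) (H' : ModelField K₁ M)
    (hx : (x : LaurentSeries K₁) = coeffEmb K₁ jq)
    (hH' : (H' : LaurentSeries K₁) = Fermat.Agent.H8.SS.h4S K₁)
    (z : ModelField K₁ M) (hz : z ∈ chartClosure A₀ (ModelField K₁ M) H') :
    heckeAlphaBar K₁ M q z ∈ chartClosure A₀ (ModelField K₁ (M * q)) x := by
  refine chartClosure_alpha_le M q K₁ A₀ x H' ?_ z hz
  refine haupt4_mem_chartClosure (M * q) K₁ A₀ x _ hx ?_
  rw [coe_heckeAlphaBar, hH']

/-- **`B(H) ⊆ B(j)`** at one level. -/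
theorem chartClosure_haupt4_le_same (N : ℕ) (K₁ : Type) [Field K₁] [Algebra ℚ K₁]
    (A₀ : Type) [CommRing A₀] [Algebra A₀ K₁]
    [Algebra A₀ (ModelField K₁ N)] [IsScalarTower A₀ K₁ (ModelField K₁ N)]
    (x H : ModelField K₁ N) (hx : (x : LaurentSeries K₁) = coeffEmb K₁ jq)
    (hH : (H : LaurentSeries K₁) = Fermat.Agent.H8.SS.h4S K₁) :
    chartClosure A₀ (ModelField K₁ N) H ≤ chartClosure A₀ (ModelField K₁ N) x := by
  intro z hz
  exact chartClosure_map_le (AlgHom.id A₀ (ModelField K₁ N)) H x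
    (haupt4_mem_chartClosure N K₁ A₀ x H hx hH) z hz

end Fermat.Agent.H62.SS
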